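/-
K-machine (row 37 / S59): THE PRODUCER CONTRACT of the algebraic core.   Captain: helper43.

The algebraic core (patching `RT/P`, support argument `RT/K4`, local rings `RT/K2*`) is closed:
what it consumes is, for every `n`, a LEVEL DATUM.  This file fixes its two Lean forms

* `TWLevelP n ρ1 ρχ`  (glue-facing): two `O`-algebra homomorphisms
  `ρ1, ρχ : P → M_d(S ⧸ 𝔪_S ^ n)` from helper27's power series ring `P = Rtk2P O ι τ`;
* `TWSide`, `TWDatum n` (producer-facing): the (framed) Hecke rings `T¹`, `T^χ` acting on the free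
  modules `(S ⧸ 𝔪 ^ n)^d`, with the matrices `Σ_i, Φ_i ∈ GL₂(T)` at the trivial primes and the
  further generators `x_t`;

and the statements of the two glue pieces

* `StmtOutTW` : `(∀ n, ∃ ρ1 ρχ, TWLevelP n ρ1 ρχ)` and the facts on the local rings give a prime
  `𝔓` of the base Hecke ring `T0` with `λ ∉ 𝔓` and `Σ⁰_i ≡ 1 mod 𝔓` for all trivial primes `i`;
* `StmtG2`    : `TWDatum n → ∃ ρ1 ρχ, TWLevelP n ρ1 ρχ`.

Conventions.  `S = O[[w_1, …, w_m]]` (`m = h + 4|ι|`: the `h` Taylor–Wiles variables and ALL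
`4|ι|` framing variables), `𝔞 = (w_1, …, w_m)`, `𝔩 = (λ)`, `I = 𝔪_S = (λ, w)`; `τ` indexes the
`g = h + |ι|` free variables of `P`, so that `3|ι| + |τ| = m`.  Mathlib-only.
-/
import Fermat.Agent.RT.K2.Defs

set_option autoImplicit false

namespace Fermat.Agent.RT

open Fermat.Agent.RT.K2 MvPowerSeries IsLocalRing

/-! ## The coefficient ring `S` and its ideals -/

/-- `S = O[[w_1, …, w_m]]`. -/
abbrev RttwS (O : Type*) [CommRing O] (m : ℕ) := MvPowerSeries (Fin m) O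

section Ideals

variable (O : Type*) [CommRing O] (m : ℕ)

/-- `𝔞 = (w_1, …, w_m)`, the kernel of the constant coefficient. -/
noncomputable def rttwAug : Ideal (RttwS O m) :=
  RingHom.ker (constantCoeff (σ := Fin m) (R := O))

variable {O} in
/-- `𝔩 = (λ)`. -/
noncomputable def rttwLam (lam : O) : Ideal (RttwS O m) :=
  Ideal.span {(C lam : RttwS O m)}

end Ideals

section Level

variable {O : Type*} [CommRing O] [IsLocalRing O] {ι τ : Type*}

/-- The reduction `M_d(O) → M_d(S ⧸ (𝔞 ⊔ I ^ n))` of base matrices. -/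
noncomputable def rttwBaseRed (m d n : ℕ) (t : Matrix (Fin d) (Fin d) O) :
    Matrix (Fin d) (Fin d) (RttwS O m ⧸ (rttwAug O m ⊔ maximalIdeal (RttwS O m) ^ n)) :=
  t.map (algebraMap O (RttwS O m ⧸ (rttwAug O m ⊔ maximalIdeal (RttwS O m) ^ n)))

/-- **The level datum, glue-facing form.**
* `kills1`, `killsχ` : `ρ1` factors through `R¹_∞ = P ⧸ rtk2Ione`, `ρχ` through `R^χ_∞ = P ⧸ rtk2Ichi`;
* `cong`     : `ρ1 ≡ ρχ` modulo `λ`;
* `scal1`, `scalχ` : `S` acts through `P`;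
* `base_loc` : modulo `𝔞` the six variables of the trivial prime `i` act as the fixed base
  matrices `B (i, k)` (`k = 0, 1, 2`: the entries `a, b, c` of `Σ⁰_i − 1`; `k = 3, 4, 5`: the
  entries `X, Y, Z` of the Cayley parameter of `Φ⁰_i / s_i`);
* `base_T0`  : modulo `𝔞` everything acts through the base Hecke ring `T0 ⊆ M_d(O)`. -/
structure TWLevelP (q δ : ι → O) (lam : O) (m d : ℕ)
    (B : ι × Fin 6 → Matrix (Fin d) (Fin d) O) (T0 : Set (Matrix (Fin d) (Fin d) O)) (n : ℕ)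
    (ρ1 ρχ : Rtk2P O ι τ →ₐ[O]
      Matrix (Fin d) (Fin d) (RttwS O m ⧸ maximalIdeal (RttwS O m) ^ n)) : Prop where
  kills1 : ∀ u ∈ rtk2Ione τ q, ρ1 u = 0
  killsχ : ∀ u ∈ rtk2Ichi τ δ, ρχ u = 0
  cong : ∀ u : Rtk2P O ι τ,
    (ρ1 u).map (Ideal.Quotient.factor
        (le_sup_right : maximalIdeal (RttwS O m) ^ n ≤ rttwLam m lam ⊔ maximalIdeal (RttwS O m) ^ n)) =
      (ρχ u).map (Ideal.Quotient.factor
        (le_sup_right : maximalIdeal (RttwS O m) ^ n ≤ rttwLam m lam ⊔ maximalIdeal (RttwS O m) ^ n))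
  scal1 : ∀ c : RttwS O m, ∃ u : Rtk2P O ι τ,
    ρ1 u = algebraMap (RttwS O m)
      (Matrix (Fin d) (Fin d) (RttwS O m ⧸ maximalIdeal (RttwS O m) ^ n)) c
  scalχ : ∀ c : RttwS O m, ∃ u : Rtk2P O ι τ,
    ρχ u = algebraMap (RttwS O m)
      (Matrix (Fin d) (Fin d) (RttwS O m ⧸ maximalIdeal (RttwS O m) ^ n)) c
  base_loc : ∀ (i : ι) (k : Fin 6),
    (ρ1 (X (rtk2ix i k))).map (Ideal.Quotient.factor
        (le_sup_right : maximalIdeal (RttwS O m) ^ n ≤ rttwAug O m ⊔ maximalIdeal (RttwS O m) ^ n)) =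
      rttwBaseRed m d n (B (i, k))
  base_T0 : ∀ u : Rtk2P O ι τ, ∃ t ∈ T0,
    (ρ1 u).map (Ideal.Quotient.factor
        (le_sup_right : maximalIdeal (RttwS O m) ^ n ≤ rttwAug O m ⊔ maximalIdeal (RttwS O m) ^ n)) =
      rttwBaseRed m d n t

/-- **GLUE 1 (`rttw_out`), statement.**  `O` a complete discrete valuation ring with finite
residue field and uniformiser `λ`, `2 ∈ Oˣ`, `q_i ≡ 1`, `q_i ≠ 1`, `δ_i ≡ 0 mod λ`;
the facts of K2 (`R^χ_∞` is a domain, `𝔮_ur` is prime and does not contain the Cramer elements);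
`T0` the base Hecke ring (commutative, finite over `O`) acting faithfully on `O^d`, `d > 0`;
`B (i, k) ∈ T0` the base values of the six variables of `i`.
If every level is inhabited, there is a prime `𝔓` of `T0` with `λ ∉ 𝔓` containing
`B (i, 0), B (i, 1), B (i, 2)` (the entries of `Σ⁰_i − 1`) for every trivial prime `i`. -/
def StmtOutTW : Prop :=
  ∀ (O : Type) [CommRing O] [IsDomain O] [IsDiscreteValuationRing O]
    [IsAdicComplete (maximalIdeal O) O] [Finite (ResidueField O)]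
    (lam : O), maximalIdeal O = Ideal.span {lam} → IsUnit (2 : O) →
    ∀ (ι τ : Type) [Fintype ι] [Fintype τ] (q δ : ι → O),
    (∀ i, ∃ r, q i = 1 + lam * r) → (∀ i, q i ≠ 1) → (∀ i, ∃ r, δ i = lam * r) →
    ∀ (m d : ℕ), 3 * Fintype.card ι + Fintype.card τ ≤ m → 0 < d →
    (rtk2Ichi τ δ).IsPrime → (rtk2Qur ι τ lam).IsPrime →
    (∀ i, (rtk2Cramer q i : Rtk2P O ι τ) ∉ rtk2Qur ι τ lam) →
    ∀ (T0 : Type) [CommRing T0] [Algebra O T0] [Module.Finite O T0]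
      (j : T0 →ₐ[O] Matrix (Fin d) (Fin d) O), Function.Injective j →
    ∀ B : ι × Fin 6 → T0,
    (∀ n : ℕ, ∃ ρ1 ρχ, TWLevelP (τ := τ) q δ lam m d (fun x => j (B x)) (Set.range j) n ρ1 ρχ) →
    ∃ 𝔓 : Ideal T0, 𝔓.IsPrime ∧ algebraMap O T0 lam ∉ 𝔓 ∧
      ∀ i, B (i, 0) ∈ 𝔓 ∧ B (i, 1) ∈ 𝔓 ∧ B (i, 2) ∈ 𝔓

end Level

/-! ## The producer-facing form -/

section Datum

variable {O : Type*} [CommRing O] {ι τ : Type*}

/-- The entries of a family of `2 × 2` matrices, as a subset of the ring. -/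
def rttwEntries {T : Type*} (M : ι → Matrix (Fin 2) (Fin 2) T) : Set T :=
  {y | ∃ (i : ι) (a b : Fin 2), y = M i a b}

/-- The Cayley parameter `Ψ = (2U − tr U)/(2 + tr U)` of `U = Φ/s`, written without division:
`Ψ` is the Cayley parameter of `Φ` with respect to `s` if `(2 s + tr Φ) Ψ = 2 Φ − tr Φ`.
(Then `tr Ψ = 0` and `Φ = s ((1 + ν) + 2Ψ)/(1 − ν)`, `ν = −det Ψ`, when `det Φ = s²`.) -/
def IsCayleyParam {T : Type*} [CommRing T] (s : T) (Phi Psi : Matrix (Fin 2) (Fin 2) T) : Prop :=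
  (2 * s + Phi.trace) • Psi = 2 • Phi - Phi.trace • (1 : Matrix (Fin 2) (Fin 2) T)

/-- **One side of a Taylor–Wiles datum** (type `1` or type `χ`), at a finite level.
`Sn` is the coefficient ring (`S ⧸ 𝔪 ^ n`), `T` the framed Hecke ring (commutative), `j` its
action on the free module `Sn^d`; `Sig i`, `Phi i ∈ M₂(T)` are the (framed) images of the
generator of tame inertia and of the Frobenius at the trivial prime `i`; `x t` are the further
generators.  `t i` is half the trace of `Sig i` (`1` for type `1`, `(ζ_i + ζ_i⁻¹)/2` for type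
`χ`), `s i` the chosen square root of `q_i` (`≡ ρ̄(Frob_i)`).
* `gen` : `Sn` acts through the `O`-subalgebra generated by the entries of `Sig`, `Phi` and
  the `x t` (this is K3 together with the local–global compatibility at the Taylor–Wiles primes). -/
structure TWSide {Sn : Type*} [CommRing Sn] [Algebra O Sn] {d : ℕ} (t s : ι → O)
    {T : Type*} [CommRing T] [Algebra O T] (j : T →ₐ[O] Matrix (Fin d) (Fin d) Sn)
    (Sig Phi : ι → Matrix (Fin 2) (Fin 2) T) (x : τ → T) : Prop where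
  tr_sig : ∀ i, (Sig i).trace = algebraMap O T (2 * t i)
  det_sig : ∀ i, (Sig i).det = 1
  det_phi : ∀ i, (Phi i).det = algebraMap O T (s i ^ 2)
  nil_sig : ∀ i a b, IsNilpotent ((Sig i - algebraMap O T (t i) • (1 : Matrix (Fin 2) (Fin 2) T)) a b)
  nil_phi : ∀ i a b, IsNilpotent ((Phi i - algebraMap O T (s i) • (1 : Matrix (Fin 2) (Fin 2) T)) a b)
  nil_x : ∀ k, IsNilpotent (x k)
  gen : ∀ c : Sn, ∃ u ∈ Algebra.adjoin O (rttwEntries Sig ∪ rttwEntries Phi ∪ Set.range x),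
    j u = algebraMap Sn (Matrix (Fin d) (Fin d) Sn) c

end Datum

section DatumN

variable {O : Type*} [CommRing O] [IsLocalRing O] {ι τ : Type*}

/-- **The Taylor–Wiles datum at level `n`, producer-facing form** (matrix form; what
K3 + K5 + K6 + K7 deliver together).  `q i = s i ^ 2` is the image of the `i`-th trivial prime
in `O`, `tχ i = (ζ_i + ζ_i⁻¹)/2`, `δ i = (ζ_i − ζ_i⁻¹)/2` (so `tχ_i² − δ_i² = 1`).
Base: `T0`, `j0`, `Sig0`, `Phi0` (the level `N` itself).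
* type `1`: `tr Σ = 2`, `Φ (Σ − 1) = q (Σ − 1) Φ`;   type `χ`: `tr Σ = 2 tχ`, `Φ Σ = Σ Φ`;
* `cong_*` : the two sides agree modulo `λ`, entry by entry;
* `base_*` : modulo `𝔞` the type `1` side is the base. -/
structure TWDatum (q s tχ : ι → O) (lam : O) (m d : ℕ)
    {T0 : Type*} [CommRing T0] [Algebra O T0] (j0 : T0 →ₐ[O] Matrix (Fin d) (Fin d) O)
    (Sig0 Phi0 : ι → Matrix (Fin 2) (Fin 2) T0) (n : ℕ)
    {T1 : Type*} [CommRing T1] [Algebra O T1]
    (j1 : T1 →ₐ[O] Matrix (Fin d) (Fin d) (RttwS O m ⧸ maximalIdeal (RttwS O m) ^ n))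
    (Sig1 Phi1 : ι → Matrix (Fin 2) (Fin 2) T1) (x1 : τ → T1)
    {Tχ : Type*} [CommRing Tχ] [Algebra O Tχ]
    (jχ : Tχ →ₐ[O] Matrix (Fin d) (Fin d) (RttwS O m ⧸ maximalIdeal (RttwS O m) ^ n))
    (Sigχ Phiχ : ι → Matrix (Fin 2) (Fin 2) Tχ) (xχ : τ → Tχ) : Prop where
  side1 : TWSide (fun _ => (1 : O)) s j1 Sig1 Phi1 x1
  sideχ : TWSide tχ s jχ Sigχ Phiχ xχ
  rel1 : ∀ i, Phi1 i * (Sig1 i - 1) = algebraMap O T1 (q i) • ((Sig1 i - 1) * Phi1 i)
  relχ : ∀ i, Phiχ i * Sigχ i = Sigχ i * Phiχ i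
  cong_sig : ∀ i a b,
    (j1 (Sig1 i a b)).map (Ideal.Quotient.factor
        (le_sup_right : maximalIdeal (RttwS O m) ^ n ≤ rttwLam m lam ⊔ maximalIdeal (RttwS O m) ^ n)) =
      (jχ (Sigχ i a b)).map (Ideal.Quotient.factor
        (le_sup_right : maximalIdeal (RttwS O m) ^ n ≤ rttwLam m lam ⊔ maximalIdeal (RttwS O m) ^ n))
  cong_phi : ∀ i a b,
    (j1 (Phi1 i a b)).map (Ideal.Quotient.factor
        (le_sup_right : maximalIdeal (RttwS O m) ^ n ≤ rttwLam m lam ⊔ maximalIdeal (RttwS O m) ^ n)) =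
      (jχ (Phiχ i a b)).map (Ideal.Quotient.factor
        (le_sup_right : maximalIdeal (RttwS O m) ^ n ≤ rttwLam m lam ⊔ maximalIdeal (RttwS O m) ^ n))
  cong_x : ∀ k,
    (j1 (x1 k)).map (Ideal.Quotient.factor
        (le_sup_right : maximalIdeal (RttwS O m) ^ n ≤ rttwLam m lam ⊔ maximalIdeal (RttwS O m) ^ n)) =
      (jχ (xχ k)).map (Ideal.Quotient.factor
        (le_sup_right : maximalIdeal (RttwS O m) ^ n ≤ rttwLam m lam ⊔ maximalIdeal (RttwS O m) ^ n))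
  base_sig : ∀ i a b,
    (j1 (Sig1 i a b)).map (Ideal.Quotient.factor
        (le_sup_right : maximalIdeal (RttwS O m) ^ n ≤ rttwAug O m ⊔ maximalIdeal (RttwS O m) ^ n)) =
      rttwBaseRed m d n (j0 (Sig0 i a b))
  base_phi : ∀ i a b,
    (j1 (Phi1 i a b)).map (Ideal.Quotient.factor
        (le_sup_right : maximalIdeal (RttwS O m) ^ n ≤ rttwAug O m ⊔ maximalIdeal (RttwS O m) ^ n)) =
      rttwBaseRed m d n (j0 (Phi0 i a b))
  base_T0 : ∀ u : T1, ∃ t0 : T0,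
    (j1 u).map (Ideal.Quotient.factor
        (le_sup_right : maximalIdeal (RttwS O m) ^ n ≤ rttwAug O m ⊔ maximalIdeal (RttwS O m) ^ n)) =
      rttwBaseRed m d n (j0 t0)

/-- The base values of the six variables of the trivial prime `i`:
`a, b, c` = entries `(0,0), (0,1), (1,0)` of `Σ⁰_i − 1`, `X, Y, Z` = the same entries of the
Cayley parameter `Ψ⁰_i`. -/
def rttwBaseVal {T0 : Type*} [CommRing T0] (Sig0 Psi0 : ι → Matrix (Fin 2) (Fin 2) T0)
    (p : ι × Fin 6) : T0 :=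
  ![(Sig0 p.1 - 1) 0 0, (Sig0 p.1 - 1) 0 1, (Sig0 p.1 - 1) 1 0,
    Psi0 p.1 0 0, Psi0 p.1 0 1, Psi0 p.1 1 0] p.2

/-- **GLUE 2 (G2), statement.**  A Taylor–Wiles datum at level `n` gives a level datum
`TWLevelP n`, with base values `rttwBaseVal Sig0 Psi0` (`Psi0 i` the Cayley parameter of
`Phi0 i`).  [Universal property of `P` for commuting nilpotent images, Cayley transform,
`2 × 2` identities: the relations of `rtk2Ione`, `rtk2Ichi` hold.] -/
def StmtG2 : Prop :=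
  ∀ (O : Type) [CommRing O] [IsDomain O] [IsDiscreteValuationRing O]
    [IsAdicComplete (maximalIdeal O) O] [Finite (ResidueField O)]
    (lam : O), maximalIdeal O = Ideal.span {lam} → IsUnit (2 : O) →
    ∀ (ι τ : Type) [Fintype ι] [Fintype τ] (q s tχ δ : ι → O),
    (∀ i, s i ^ 2 = q i) → (∀ i, ∃ r, s i = 1 + lam * r ∨ s i = -1 + lam * r) →
    (∀ i, tχ i ^ 2 - δ i ^ 2 = 1) → (∀ i, ∃ r, tχ i = 1 + lam * r) → (∀ i, ∃ r, δ i = lam * r) →
    ∀ (m d : ℕ) (T0 : Type) [CommRing T0] [Algebra O T0]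
      (j0 : T0 →ₐ[O] Matrix (Fin d) (Fin d) O)
      (Sig0 Phi0 Psi0 : ι → Matrix (Fin 2) (Fin 2) T0),
    (∀ i, IsCayleyParam (algebraMap O T0 (s i)) (Phi0 i) (Psi0 i)) →
    ∀ (n : ℕ) (T1 : Type) [CommRing T1] [Algebra O T1]
      (j1 : T1 →ₐ[O] Matrix (Fin d) (Fin d) (RttwS O m ⧸ maximalIdeal (RttwS O m) ^ n))
      (Sig1 Phi1 : ι → Matrix (Fin 2) (Fin 2) T1) (x1 : τ → T1)
      (Tχ : Type) [CommRing Tχ] [Algebra O Tχ]
      (jχ : Tχ →ₐ[O] Matrix (Fin d) (Fin d) (RttwS O m ⧸ maximalIdeal (RttwS O m) ^ n))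
      (Sigχ Phiχ : ι → Matrix (Fin 2) (Fin 2) Tχ) (xχ : τ → Tχ),
    TWDatum q s tχ lam m d j0 Sig0 Phi0 n j1 Sig1 Phi1 x1 jχ Sigχ Phiχ xχ →
    ∃ ρ1 ρχ, TWLevelP (τ := τ) q δ lam m d (fun x => j0 (rttwBaseVal Sig0 Psi0 x))
      (Set.range j0) n ρ1 ρχ

end DatumN

end Fermat.Agent.RT
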