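/-
K-machine (row 37 / S59): THE PRODUCER CONTRACT, SYMMETRIC ("EVEN") FORM.   Captain: helper43.

Why.  At a Taylor–Wiles prime `q` the traces of the Hecke-side representation only see
`[δ] + [δ]⁻¹` (`δ ∈ Δ_q`): without choosing one of the two Frobenius eigenlines (which would need
a local–global statement for `U_q`) the image of the deformation ring does not contain the group
ring `O[Δ_q]` but only its part invariant under inversion.  In the coordinate
`Y_q = [δ_q]^{1/2} − [δ_q]^{−1/2}` inversion is `Y ↦ −Y`, and `tr ρ(σ_q) − 2 = Y_q²`.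
So `S = O[[Y_1, …, Y_h, z]]` acts on the level modules as before (free, with the fixed base
modulo `𝔞`), but only the series that are EVEN in `Y_1, …, Y_h` act through `P`.

This file is `RT/PlanTW.lean` with the clauses `scal1`, `scalχ`, `gen` restricted to the even
series:
* `rttwEven O m h`  : the series even in each of the first `h` variables;
* `TWLevelE`, `StmtOutTWE`  (glue-facing; `TWLevelP → TWLevelE`, `StmtOutTWE → StmtOutTW`);
* `TWSideE`, `TWDatumE`, `StmtG2E`  (producer-facing).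
Mathlib-only.
-/
import Fermat.Agent.RT.PlanTW

set_option autoImplicit false

namespace Fermat.Agent.RT

open Fermat.Agent.RT.K2 MvPowerSeries IsLocalRing

/-- The power series in `w_1, …, w_m` that are even in each of the first `h` variables. -/
def rttwEven (O : Type*) [CommRing O] (m h : ℕ) : Set (RttwS O m) :=
  {f | ∀ e : Fin m →₀ ℕ, MvPowerSeries.coeff e f ≠ 0 → ∀ i : Fin m, (i : ℕ) < h → Even (e i)}

theorem rttwEven_zero_right (O : Type*) [CommRing O] (m : ℕ) (f : RttwS O m) :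
    f ∈ rttwEven O m 0 := fun _ _ _ hi => absurd hi (Nat.not_lt_zero _)

section Level

variable {O : Type*} [CommRing O] [IsLocalRing O] {ι τ : Type*}

/-- **The level datum, glue-facing form, even scalars.**  As `TWLevelP`, but only the series
even in the first `h` variables are asked to act through `P`. -/
structure TWLevelE (q δ : ι → O) (lam : O) (m h d : ℕ)
    (B : ι × Fin 6 → Matrix (Fin d) (Fin d) O) (T0 : Set (Matrix (Fin d) (Fin d) O)) (n : ℕ)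
    (ρ1 ρχ : Rtk2P O ι τ →ₐ[O]
      Matrix (Fin d) (Fin d) (RttwS O m ⧸ maximalIdeal (RttwS O m) ^ n)) : Prop where
  kills1 : ∀ u ∈ rtk2Ione τ q, ρ1 u = 0
  killsχ : ∀ u ∈ rtk2Ichi τ δ, ρχ u = 0
  cong : ∀ u : Rtk2P O ι τ,
    (ρ1 u).map (Ideal.Quotient.factor
        (le_sup_right : maximalIdeal (RttwS O m) ^ n ≤ rttwLam m lam ⊔ maximalIdeal (RttwS O m) ^ n)) =
      (ρχ u).map (Ideal.Quotient.factor
        (le_sup_right : maximalIdeal (RttwS O m) ^ n ≤ rttwLam m lam ⊔ maximalIdeal (RttwS O m) ^ n))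
  scal1 : ∀ c ∈ rttwEven O m h, ∃ u : Rtk2P O ι τ,
    ρ1 u = algebraMap (RttwS O m)
      (Matrix (Fin d) (Fin d) (RttwS O m ⧸ maximalIdeal (RttwS O m) ^ n)) c
  scalχ : ∀ c ∈ rttwEven O m h, ∃ u : Rtk2P O ι τ,
    ρχ u = algebraMap (RttwS O m)
      (Matrix (Fin d) (Fin d) (RttwS O m ⧸ maximalIdeal (RttwS O m) ^ n)) c
  base_loc : ∀ (i : ι) (k : Fin 6),
    (ρ1 (X (rtk2ix i k))).map (Ideal.Quotient.factor
        (le_sup_right : maximalIdeal (RttwS O m) ^ n ≤ rttwAug O m ⊔ maximalIdeal (RttwS O m) ^ n)) =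
      rttwBaseRed m d n (B (i, k))
  base_T0 : ∀ u : Rtk2P O ι τ, ∃ t ∈ T0,
    (ρ1 u).map (Ideal.Quotient.factor
        (le_sup_right : maximalIdeal (RttwS O m) ^ n ≤ rttwAug O m ⊔ maximalIdeal (RttwS O m) ^ n)) =
      rttwBaseRed m d n t

/-- The old level datum is an even one (for every `h`). -/
theorem TWLevelP.toE {q δ : ι → O} {lam : O} {m d : ℕ}
    {B : ι × Fin 6 → Matrix (Fin d) (Fin d) O} {T0 : Set (Matrix (Fin d) (Fin d) O)} {n : ℕ}
    {ρ1 ρχ : Rtk2P O ι τ →ₐ[O]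
      Matrix (Fin d) (Fin d) (RttwS O m ⧸ maximalIdeal (RttwS O m) ^ n)}
    (H : TWLevelP q δ lam m d B T0 n ρ1 ρχ) (h : ℕ) :
    TWLevelE q δ lam m h d B T0 n ρ1 ρχ where
  kills1 := H.kills1
  killsχ := H.killsχ
  cong := H.cong
  scal1 := fun c _ => H.scal1 c
  scalχ := fun c _ => H.scalχ c
  base_loc := H.base_loc
  base_T0 := H.base_T0

/-- **GLUE 1, even form (piece EVEN), statement.**  Exactly `StmtOutTW`, with `TWLevelE` (for
some fixed `h`) in place of `TWLevelP`.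
Proof (helper97's short route): patch as in `RT/Out.lean` (the scalars are treated one by one);
apply `rtk4_out_weak_of_dim` to the module `S^d` over `S″ = O[[w]]` acting through
`sq : w_i ↦ w_i ^ 2` (`i < h`), `w_i ↦ w_i` (`h ≤ i`) — `S` is finite over `S″` —; the kernel of the
action on `S^d ⧸ 𝔞 S^d` is nilpotent modulo the kernel of the action on `S^d ⧸ sq(𝔞″) S^d`
because `𝔞 ^ (h + 1) ≤ sq(𝔞″) S`. -/
def StmtOutTWE : Prop :=
  ∀ (O : Type) [CommRing O] [IsDomain O] [IsDiscreteValuationRing O]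
    [IsAdicComplete (maximalIdeal O) O] [Finite (ResidueField O)]
    (lam : O), maximalIdeal O = Ideal.span {lam} → IsUnit (2 : O) →
    ∀ (ι τ : Type) [Fintype ι] [Fintype τ] (q δ : ι → O),
    (∀ i, ∃ r, q i = 1 + lam * r) → (∀ i, q i ≠ 1) → (∀ i, ∃ r, δ i = lam * r) →
    ∀ (m h d : ℕ), 3 * Fintype.card ι + Fintype.card τ ≤ m → 0 < d →
    (rtk2Ichi τ δ).IsPrime → (rtk2Qur ι τ lam).IsPrime →
    (∀ i, (rtk2Cramer q i : Rtk2P O ι τ) ∉ rtk2Qur ι τ lam) →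
    ∀ (T0 : Type) [CommRing T0] [Algebra O T0] [Module.Finite O T0]
      (j : T0 →ₐ[O] Matrix (Fin d) (Fin d) O), Function.Injective j →
    ∀ B : ι × Fin 6 → T0,
    (∀ n : ℕ, ∃ ρ1 ρχ,
      TWLevelE (τ := τ) q δ lam m h d (fun x => j (B x)) (Set.range j) n ρ1 ρχ) →
    ∃ 𝔓 : Ideal T0, 𝔓.IsPrime ∧ algebraMap O T0 lam ∉ 𝔓 ∧
      ∀ i, B (i, 0) ∈ 𝔓 ∧ B (i, 1) ∈ 𝔓 ∧ B (i, 2) ∈ 𝔓

/-- The even form implies the old one. -/
theorem stmtOutTW_of_E (H : StmtOutTWE) : StmtOutTW := by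
  intro O _ _ _ _ _ lam hlam h2 ι τ _ _ q δ hq hq1 hδ m d hm hd hχ hQ hCr T0 _ _ _ j hj B hlev
  refine H O lam hlam h2 ι τ q δ hq hq1 hδ m 0 d hm hd hχ hQ hCr T0 j hj B fun n => ?_
  obtain ⟨ρ1, ρχ, hρ⟩ := hlev n
  exact ⟨ρ1, ρχ, hρ.toE 0⟩

end Level

/-! ## The producer-facing form -/

section Datum

variable {O : Type*} [CommRing O] {ι τ : Type*}

/-- **One side of a Taylor–Wiles datum, even form**: as `TWSide`, but only the elements of
`E ⊆ Sn` (the even part) are asked to act through the subalgebra generated by the entries of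
`Sig`, `Phi` and the `x t`. -/
structure TWSideE {Sn : Type*} [CommRing Sn] [Algebra O Sn] (E : Set Sn) {d : ℕ} (t s : ι → O)
    {T : Type*} [CommRing T] [Algebra O T] (j : T →ₐ[O] Matrix (Fin d) (Fin d) Sn)
    (Sig Phi : ι → Matrix (Fin 2) (Fin 2) T) (x : τ → T) : Prop where
  tr_sig : ∀ i, (Sig i).trace = algebraMap O T (2 * t i)
  det_sig : ∀ i, (Sig i).det = 1
  det_phi : ∀ i, (Phi i).det = algebraMap O T (s i ^ 2)
  nil_sig : ∀ i a b, IsNilpotent ((Sig i - algebraMap O T (t i) • (1 : Matrix (Fin 2) (Fin 2) T)) a b)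
  nil_phi : ∀ i a b, IsNilpotent ((Phi i - algebraMap O T (s i) • (1 : Matrix (Fin 2) (Fin 2) T)) a b)
  nil_x : ∀ k, IsNilpotent (x k)
  gen : ∀ c ∈ E, ∃ u ∈ Algebra.adjoin O (rttwEntries Sig ∪ rttwEntries Phi ∪ Set.range x),
    j u = algebraMap Sn (Matrix (Fin d) (Fin d) Sn) c

theorem TWSide.toE {Sn : Type*} [CommRing Sn] [Algebra O Sn] {d : ℕ} {t s : ι → O}
    {T : Type*} [CommRing T] [Algebra O T] {j : T →ₐ[O] Matrix (Fin d) (Fin d) Sn}
    {Sig Phi : ι → Matrix (Fin 2) (Fin 2) T} {x : τ → T} (H : TWSide t s j Sig Phi x)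
    (E : Set Sn) : TWSideE E t s j Sig Phi x where
  tr_sig := H.tr_sig
  det_sig := H.det_sig
  det_phi := H.det_phi
  nil_sig := H.nil_sig
  nil_phi := H.nil_phi
  nil_x := H.nil_x
  gen := fun c _ => H.gen c

end Datum

section DatumN

variable {O : Type*} [CommRing O] [IsLocalRing O] {ι τ : Type*}

/-- The image of the even series in `S ⧸ 𝔪 ^ n`. -/
def rttwEvenQ (O : Type*) [CommRing O] [IsLocalRing O] (m h n : ℕ) :
    Set (RttwS O m ⧸ maximalIdeal (RttwS O m) ^ n) :=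
  {c | ∃ f ∈ rttwEven O m h, c = Ideal.Quotient.mk (maximalIdeal (RttwS O m) ^ n) f}

/-- **The Taylor–Wiles datum at level `n`, producer-facing form, even scalars.**
As `TWDatum`; the first `h` variables of `S` are the Taylor–Wiles variables `Y_q`. -/
structure TWDatumE (q s tχ : ι → O) (lam : O) (m h d : ℕ)
    {T0 : Type*} [CommRing T0] [Algebra O T0] (j0 : T0 →ₐ[O] Matrix (Fin d) (Fin d) O)
    (Sig0 Phi0 : ι → Matrix (Fin 2) (Fin 2) T0) (n : ℕ)
    {T1 : Type*} [CommRing T1] [Algebra O T1]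
    (j1 : T1 →ₐ[O] Matrix (Fin d) (Fin d) (RttwS O m ⧸ maximalIdeal (RttwS O m) ^ n))
    (Sig1 Phi1 : ι → Matrix (Fin 2) (Fin 2) T1) (x1 : τ → T1)
    {Tχ : Type*} [CommRing Tχ] [Algebra O Tχ]
    (jχ : Tχ →ₐ[O] Matrix (Fin d) (Fin d) (RttwS O m ⧸ maximalIdeal (RttwS O m) ^ n))
    (Sigχ Phiχ : ι → Matrix (Fin 2) (Fin 2) Tχ) (xχ : τ → Tχ) : Prop where
  side1 : TWSideE (rttwEvenQ O m h n) (fun _ => (1 : O)) s j1 Sig1 Phi1 x1
  sideχ : TWSideE (rttwEvenQ O m h n) tχ s jχ Sigχ Phiχ xχ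
  rel1 : ∀ i, Phi1 i * (Sig1 i - 1) = algebraMap O T1 (q i) • ((Sig1 i - 1) * Phi1 i)
  relχ : ∀ i, Phiχ i * Sigχ i = Sigχ i * Phiχ i
  cong_sig : ∀ i a b,
    (j1 (Sig1 i a b)).map (Ideal.Quotient.factor
        (le_sup_right : maximalIdeal (RttwS O m) ^ n ≤ rttwLam m lam ⊔ maximalIdeal (RttwS O m) ^ n)) =
      (jχ (Sigχ i a b)).map (Ideal.Quotient.factor
        (le_sup_right : maximalIdeal (RttwS O m) ^ n ≤ rttwLam m lam ⊔ maximalIdeal (RttwS O m) ^ n))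
  cong_phi : ∀ i a b,
    (j1 (Phi1 i a b)).map (Ideal.Quotient.factor
        (le_sup_right : maximalIdeal (RttwS O m) ^ n ≤ rttwLam m lam ⊔ maximalIdeal (RttwS O m) ^ n)) =
      (jχ (Phiχ i a b)).map (Ideal.Quotient.factor
        (le_sup_right : maximalIdeal (RttwS O m) ^ n ≤ rttwLam m lam ⊔ maximalIdeal (RttwS O m) ^ n))
  cong_x : ∀ k,
    (j1 (x1 k)).map (Ideal.Quotient.factor
        (le_sup_right : maximalIdeal (RttwS O m) ^ n ≤ rttwLam m lam ⊔ maximalIdeal (RttwS O m) ^ n)) =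
      (jχ (xχ k)).map (Ideal.Quotient.factor
        (le_sup_right : maximalIdeal (RttwS O m) ^ n ≤ rttwLam m lam ⊔ maximalIdeal (RttwS O m) ^ n))
  base_sig : ∀ i a b,
    (j1 (Sig1 i a b)).map (Ideal.Quotient.factor
        (le_sup_right : maximalIdeal (RttwS O m) ^ n ≤ rttwAug O m ⊔ maximalIdeal (RttwS O m) ^ n)) =
      rttwBaseRed m d n (j0 (Sig0 i a b))
  base_phi : ∀ i a b,
    (j1 (Phi1 i a b)).map (Ideal.Quotient.factor
        (le_sup_right : maximalIdeal (RttwS O m) ^ n ≤ rttwAug O m ⊔ maximalIdeal (RttwS O m) ^ n)) =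
      rttwBaseRed m d n (j0 (Phi0 i a b))
  base_T0 : ∀ u : T1, ∃ t0 : T0,
    (j1 u).map (Ideal.Quotient.factor
        (le_sup_right : maximalIdeal (RttwS O m) ^ n ≤ rttwAug O m ⊔ maximalIdeal (RttwS O m) ^ n)) =
      rttwBaseRed m d n (j0 t0)

/-- **GLUE 2, even form (G2E), statement.**  Exactly `StmtG2` with `TWDatumE`, `TWLevelE`. -/
def StmtG2E : Prop :=
  ∀ (O : Type) [CommRing O] [IsDomain O] [IsDiscreteValuationRing O]
    [IsAdicComplete (maximalIdeal O) O] [Finite (ResidueField O)]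
    (lam : O), maximalIdeal O = Ideal.span {lam} → IsUnit (2 : O) →
    ∀ (ι τ : Type) [Fintype ι] [Fintype τ] (q s tχ δ : ι → O),
    (∀ i, s i ^ 2 = q i) → (∀ i, ∃ r, s i = 1 + lam * r ∨ s i = -1 + lam * r) →
    (∀ i, tχ i ^ 2 - δ i ^ 2 = 1) → (∀ i, ∃ r, tχ i = 1 + lam * r) → (∀ i, ∃ r, δ i = lam * r) →
    ∀ (m h d : ℕ) (T0 : Type) [CommRing T0] [Algebra O T0]
      (j0 : T0 →ₐ[O] Matrix (Fin d) (Fin d) O)
      (Sig0 Phi0 Psi0 : ι → Matrix (Fin 2) (Fin 2) T0),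
    (∀ i, IsCayleyParam (algebraMap O T0 (s i)) (Phi0 i) (Psi0 i)) →
    ∀ (n : ℕ) (T1 : Type) [CommRing T1] [Algebra O T1]
      (j1 : T1 →ₐ[O] Matrix (Fin d) (Fin d) (RttwS O m ⧸ maximalIdeal (RttwS O m) ^ n))
      (Sig1 Phi1 : ι → Matrix (Fin 2) (Fin 2) T1) (x1 : τ → T1)
      (Tχ : Type) [CommRing Tχ] [Algebra O Tχ]
      (jχ : Tχ →ₐ[O] Matrix (Fin d) (Fin d) (RttwS O m ⧸ maximalIdeal (RttwS O m) ^ n))
      (Sigχ Phiχ : ι → Matrix (Fin 2) (Fin 2) Tχ) (xχ : τ → Tχ),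
    TWDatumE q s tχ lam m h d j0 Sig0 Phi0 n j1 Sig1 Phi1 x1 jχ Sigχ Phiχ xχ →
    ∃ ρ1 ρχ, TWLevelE (τ := τ) q δ lam m h d (fun x => j0 (rttwBaseVal Sig0 Psi0 x))
      (Set.range j0) n ρ1 ρχ

end DatumN

end Fermat.Agent.RT
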