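/-
K-machine (row 37 / S59), piece K3: FRAMED TAYLOR–WILES PRIMES — interface.   Captain: helper43.

`T` = the trivial primes (`r ≡ 1 mod p`, `ρ̄(D_r) ⊆ {±1}`).  The deformation problem of the
K-machine is `twFlat 𝒪 p Smin (Q ∪ T)` (project TW: flat at `p`, unipotent at the other primes of
`Smin`, NO condition at `Q ∪ T`), framed at `T`.  Because `G_r` acts trivially on `ad⁰ ρ̄` at a
trivial prime, a deformation to `k[ε]` is "framed-trivial at `r`" iff it is constant on `D_r`: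
`rtk3TrivAt`.  So the Selmer group with local condition `L_r = 0` at `T` is the tangent space of
`rtk3Flat 𝒪 p Smin Q T := twFlat 𝒪 p Smin Q ∧ ∀ r ∈ T, rtk3TrivAt · r`.

* `StmtK3Sel` : S56's chain (C)(D)(E) with `L_r = 0` at `T` (each `r ∈ T` contributes
  `dim L_r − h⁰(G_r, ad⁰) = −3`): `∃ h ≥ 3|T|, ∀ n, ∃ Q` with `#Tan(rtk3Flat) ≤ |k|^(h − 3|T|)`.
* `StmtK3Alg` : tangent bound ⇒ FRAMED GENERATION: a deformation `ρ` over a finite local `A`,
  with framings `β_r ∈ 1 + M₂(𝔪_A)`, such that `A` is generated by the TRACES of `ρ` and the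
  entries of the `β_r`, is generated by the entries of the framed local matrices
  `β_r⁻¹ ρ(σ) β_r` (`σ ∈ D_r`, `r ∈ T`) and `h + |T|` further elements of `𝔪_A`.
  [cotangent space of `A` relative to the framed local entries ↪ Tan(rtk3Flat) × k^(4|T|).]
-/
import Fermat.Agent.TW.Plan

set_option autoImplicit false

namespace Fermat.Agent.RT

open Polynomial IsLocalRing Fermat.Agent.TW

/-- `ρ` is constant `±1` on the decomposition groups at `r`. -/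
def rtk3TrivAt {A : Type} [CommRing A] [IsLocalRing A] (ρ : GaloisRepAdic A) (r : ℕ) : Prop :=
  ∀ P : ValuationSubring (AlgebraicClosure ℚ), P.LiesOverPrime r →
    ∀ σ ∈ P.decompositionSubgroup ℚ, ρ.ρ σ = 1 ∨ ρ.ρ σ = -1

/-- The flat deformation condition with Taylor–Wiles primes `Q` and TRIVIAL restriction to the
decomposition groups at the primes of `T`. -/
def rtk3Flat (𝒪 : Type) [CommRing 𝒪] (p : ℕ) (Smin Q T : Finset ℕ) :
    ∀ ⦃A : Type⦄ [CommRing A] [IsLocalRing A] [Algebra 𝒪 A], GaloisRepAdic A → Prop :=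
  fun _A _ _ _ ρ => twFlat 𝒪 p Smin Q ρ ∧ ∀ r ∈ T, rtk3TrivAt ρ r

/-- The hypotheses on the set `T` of trivial primes. -/
def IsTrivSet {k : Type} [Field k] (p : ℕ) (ρbar : ResidualGaloisRep k) (Smin T : Finset ℕ) :
    Prop :=
  ∀ r ∈ T, r.Prime ∧ r ∉ Smin ∧ p ∣ r - 1 ∧
    rtk3TrivAt (GaloisRepAdic.ofResidualGaloisRep ρbar) r

section

variable (𝒪 : Type) [CommRing 𝒪] [IsDomain 𝒪] [IsDiscreteValuationRing 𝒪]
  [IsAdicComplete (maximalIdeal 𝒪) 𝒪] [Finite (ResidueField 𝒪)]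

/-- **K3-Sel.**  Framed Taylor–Wiles primes, cohomological part. -/
def StmtK3Sel : Prop :=
  ∀ (p : ℕ) [Fact p.Prime] (ρbar : ResidualGaloisRep (ResidueField 𝒪)) (S Smin T : Finset ℕ),
    TWHyp 𝒪 p ρbar S Smin → IsTrivSet p ρbar Smin T → T ⊆ S →
    ∃ h : ℕ, 3 * T.card ≤ h ∧ ∀ n : ℕ, ∃ qv : Fin h → ℕ, IsTWFamily p ρbar S n h qv ∧
      TwTanCard 𝒪 ρbar (rtk3Flat 𝒪 p Smin (Finset.univ.image qv) T)
        (Nat.card (ResidueField 𝒪) ^ (h - 3 * T.card))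

/-- The entries of the framed local matrices `β_r⁻¹ ρ(σ) β_r`, `σ ∈ D_r`, `r ∈ T`
(`β r` is invertible: `βi r` is its inverse). -/
def rtk3LocalEntries {A : Type} [CommRing A] [IsLocalRing A] (ρ : GaloisRepAdic A)
    (b : Module.Basis (Fin 2) A ρ.V) (T : Finset ℕ)
    (β βi : ℕ → Matrix (Fin 2) (Fin 2) A) : Set A :=
  {y | ∃ r ∈ T, ∃ P : ValuationSubring (AlgebraicClosure ℚ), P.LiesOverPrime r ∧
    ∃ σ ∈ P.decompositionSubgroup ℚ, ∃ i j : Fin 2,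
      y = (βi r * LinearMap.toMatrix b b (ρ.ρ σ) * β r) i j}

/-- **K3-Alg.**  Tangent bound ⇒ framed generation. -/
def StmtK3Alg : Prop :=
  ∀ (p : ℕ) [Fact p.Prime] (ρbar : ResidualGaloisRep (ResidueField 𝒪)) (S Smin T Q : Finset ℕ),
    TWHyp 𝒪 p ρbar S Smin → IsTrivSet p ρbar Smin T → ∀ g : ℕ,
    TwTanCard 𝒪 ρbar (rtk3Flat 𝒪 p Smin Q T) (Nat.card (ResidueField 𝒪) ^ g) →
    ∀ (A : Type) [CommRing A] [IsLocalRing A] [Algebra 𝒪 A] [Finite A],
      IsLocalHom (algebraMap 𝒪 A) → Function.Surjective (residue A ∘ algebraMap 𝒪 A) →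
    ∀ (ρ : GaloisRepAdic A), twFlat 𝒪 p Smin (Q ∪ T) ρ →
      ρ.residual.IsEquiv (ρbar.baseChange (ResidueField A)) →
    ∀ (b : Module.Basis (Fin 2) A ρ.V) (β βi : ℕ → Matrix (Fin 2) (Fin 2) A),
      (∀ r ∈ T, β r * βi r = 1 ∧ ∀ i j, (β r - 1) i j ∈ maximalIdeal A) →
      Algebra.adjoin 𝒪 ({y | ∃ σ, y = LinearMap.trace A ρ.V (ρ.ρ σ)} ∪
        {y | ∃ r ∈ T, ∃ i j, y = β r i j}) = ⊤ →
      ∃ x : Fin (g + 4 * T.card) → A, (∀ k, x k ∈ maximalIdeal A) ∧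
        Algebra.adjoin 𝒪 (rtk3LocalEntries ρ b T β βi ∪ Set.range x) = ⊤

end

end Fermat.Agent.RT
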