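import Fermat.Agent.RT.PlanTW
import Fermat.Agent.RT.P.Cnl
import Fermat.Agent.RT.K4.OutT0
import Fermat.Agent.RT.K2b.Qur
import Fermat.Agent.RT.K2b.Rchi

/-!
# K-machine (row 37 / S59), GLUE 1: `stmtOutTW : StmtOutTW`   (helper70)

From the level data `TWLevelP` (all `n`) to a prime `𝔓` of the base Hecke ring `T0` with `λ ∉ 𝔓`
and `Σ⁰_i ≡ 1 mod 𝔓`: patching (`rtp_patch_powerSeries`) followed by the support argument
(`rtk4_out_T0_of_dim`), with the facts on the local rings from `RT/K2`, `RT/K2b`.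

* `R0 = O[X_{i,k}]` (polynomial ring), `ι₀ = rttwoIota : R0 → R¹_∞`, `θ = rttwoTheta`;
* `R1 = P ⧸ I_1`, `Rχ = P ⧸ I_χ`, `Rb = P ⧸ (I_1 + (λ))`, `E r1 rχ := f1 r1 = fχ rχ`;
* `T0`-side: `rttwoJ = (M_d(O) → M_d(S ⧸ 𝔞)) ∘ j`, `rttwoN = range rttwoJ` as an `S`-submodule;
* `rttwo_level` : `TWLevelP → RtpLevel`.
-/

set_option autoImplicit false
set_option linter.style.haveILetI false

namespace Fermat.Agent.RT

open Fermat.Agent.RT.K2 Fermat.Agent.RT.K2b Fermat.Agent.RT.K4 Fermat.Agent.RT.P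
open MvPowerSeries IsLocalRing

section Base

variable (O : Type*) [CommRing O] (m : ℕ)

theorem rttwo_algebraMap_S (a : O) : algebraMap O (RttwS O m) a = C a := rfl

theorem rttwo_algebraMap_quot (J : Ideal (RttwS O m)) (a : O) :
    algebraMap O (RttwS O m ⧸ J) a = Ideal.Quotient.mk J (C a) := rfl

/-- modulo `𝔞` every power series is its constant coefficient -/
theorem rttwo_mk_eq (s : RttwS O m) :
    Ideal.Quotient.mk (rttwAug O m) s =
      algebraMap O (RttwS O m ⧸ rttwAug O m) (constantCoeff s) := by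
  rw [rttwo_algebraMap_quot, Ideal.Quotient.eq]
  unfold rttwAug
  rw [RingHom.mem_ker, map_sub, constantCoeff_C, sub_self]

theorem rttwo_algebraMap_injective :
    Function.Injective (algebraMap O (RttwS O m ⧸ rttwAug O m)) := by
  intro a b h
  rw [rttwo_algebraMap_quot, rttwo_algebraMap_quot, Ideal.Quotient.eq] at h
  unfold rttwAug at h
  rw [RingHom.mem_ker, map_sub, constantCoeff_C, constantCoeff_C, sub_eq_zero] at h
  exact h

theorem rttwo_aug_isPrime [IsDomain O] : (rttwAug O m).IsPrime :=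
  RingHom.ker_isPrime _

variable (d : ℕ)

/-- The base change `M_d(O) → M_d(S ⧸ 𝔞)`. -/
noncomputable def rttwoJb :
    Matrix (Fin d) (Fin d) O →ₐ[O] Matrix (Fin d) (Fin d) (RttwS O m ⧸ rttwAug O m) :=
  (Algebra.ofId O (RttwS O m ⧸ rttwAug O m)).mapMatrix

theorem rttwoJb_apply (t : Matrix (Fin d) (Fin d) O) :
    rttwoJb O m d t = t.map (algebraMap O (RttwS O m ⧸ rttwAug O m)) := rfl

theorem rttwoJb_injective : Function.Injective (rttwoJb O m d) := by
  intro a b h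
  ext i k
  have := congrFun (congrFun h i) k
  exact rttwo_algebraMap_injective O m this

/-- reduction of a base matrix modulo `𝔞 ⊔ I ^ n`, through `S ⧸ 𝔞` -/
theorem rttwoJb_map_factor [IsLocalRing O] (n : ℕ) (t : Matrix (Fin d) (Fin d) O) :
    (rttwoJb O m d t).map (Ideal.Quotient.factor
        (le_sup_left : rttwAug O m ≤ rttwAug O m ⊔ maximalIdeal (RttwS O m) ^ n)) =
      rttwBaseRed m d n t := by
  ext i k
  rfl

end Base

section Glue

variable {O : Type*} [CommRing O] {ι τ : Type*} (m : ℕ) {d : ℕ}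
  {T0 : Type*} [CommRing T0] [Algebra O T0]

/-- The base action of `T0` on `(S ⧸ 𝔞)^d`. -/
noncomputable def rttwoJ (j : T0 →ₐ[O] Matrix (Fin d) (Fin d) O) :
    T0 →ₐ[O] Matrix (Fin d) (Fin d) (RttwS O m ⧸ rttwAug O m) :=
  (rttwoJb O m d).comp j

theorem rttwoJ_apply (j : T0 →ₐ[O] Matrix (Fin d) (Fin d) O) (t : T0) :
    rttwoJ m j t = rttwoJb O m d (j t) := rfl

theorem rttwoJ_injective (j : T0 →ₐ[O] Matrix (Fin d) (Fin d) O) (hj : Function.Injective j) :
    Function.Injective (rttwoJ m j) :=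
  (rttwoJb_injective O m d).comp hj

theorem rttwo_smul_elt (s : RttwS O m) (y : RttwS O m ⧸ rttwAug O m) :
    s • y = (constantCoeff s : O) • y := by
  obtain ⟨t, rfl⟩ := Ideal.Quotient.mk_surjective y
  have h1 : s • Ideal.Quotient.mk (rttwAug O m) t =
      Ideal.Quotient.mk (rttwAug O m) (s * t) := rfl
  have h2 : (constantCoeff s : O) • Ideal.Quotient.mk (rttwAug O m) t =
      Ideal.Quotient.mk (rttwAug O m) (C (constantCoeff s) * t) := by
    have h3 : (constantCoeff s : O) • Ideal.Quotient.mk (rttwAug O m) t =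
        Ideal.Quotient.mk (rttwAug O m) ((constantCoeff s : O) • t) := rfl
    rw [h3, MvPowerSeries.smul_eq_C_mul]
  rw [h1, h2, Ideal.Quotient.eq, ← sub_mul]
  apply Ideal.mul_mem_right
  unfold rttwAug
  rw [RingHom.mem_ker, map_sub, constantCoeff_C, sub_self]

theorem rttwo_smul_eq (s : RttwS O m)
    (M : Matrix (Fin d) (Fin d) (RttwS O m ⧸ rttwAug O m)) :
    s • M = (constantCoeff s : O) • M := by
  ext i k
  exact rttwo_smul_elt m s (M i k)

/-- The image of `T0` in `M_d(S ⧸ 𝔞)`, as an `S`-submodule. -/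
noncomputable def rttwoN (j : T0 →ₐ[O] Matrix (Fin d) (Fin d) O) :
    Submodule (RttwS O m) (Matrix (Fin d) (Fin d) (RttwS O m ⧸ rttwAug O m)) where
  carrier := Set.range (rttwoJ m j)
  add_mem' := by
    rintro _ _ ⟨a, rfl⟩ ⟨b, rfl⟩
    exact ⟨a + b, map_add _ _ _⟩
  zero_mem' := ⟨0, map_zero _⟩
  smul_mem' := by
    rintro s _ ⟨a, rfl⟩
    refine ⟨(constantCoeff s : O) • a, ?_⟩
    rw [map_smul, rttwo_smul_eq]

theorem rttwo_mem_N (j : T0 →ₐ[O] Matrix (Fin d) (Fin d) O)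
    (x : Matrix (Fin d) (Fin d) (RttwS O m ⧸ rttwAug O m)) :
    x ∈ (rttwoN m j : Set (Matrix (Fin d) (Fin d) (RttwS O m ⧸ rttwAug O m))) ↔
      ∃ t, rttwoJ m j t = x := Iff.rfl

variable (τ) in
/-- `ι₀ : O[X_{i,k}] → R¹_∞`. -/
noncomputable def rttwoIota (q : ι → O) : MvPolynomial (ι × Fin 6) O →ₐ[O] Rtk2Rone τ q :=
  MvPolynomial.aeval (fun p => Ideal.Quotient.mk (rtk2Ione τ q) (X (rtk2ix p.1 p.2)))

/-- The fixed action `θ` of `O[X_{i,k}]` on the base. -/
noncomputable def rttwoTheta (j : T0 →ₐ[O] Matrix (Fin d) (Fin d) O) (B : ι × Fin 6 → T0) :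
    MvPolynomial (ι × Fin 6) O →ₐ[O] Matrix (Fin d) (Fin d) (RttwS O m ⧸ rttwAug O m) :=
  (rttwoJ m j).comp (MvPolynomial.aeval B)

variable (τ) in
/-- The common special fibre `P ⧸ (I_1 + (λ))`. -/
abbrev RttwoRb (q : ι → O) (lam : O) :=
  Rtk2P O ι τ ⧸ (rtk2Ione τ q ⊔ Ideal.span {(C lam : Rtk2P O ι τ)})

variable (τ) in
/-- `R¹_∞ → P ⧸ (I_1 + (λ))`. -/
noncomputable def rttwoF1 (q : ι → O) (lam : O) : Rtk2Rone τ q →+* RttwoRb τ q lam :=
  Ideal.Quotient.factor le_sup_left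

/-- `R^χ_∞ → P ⧸ (I_1 + (λ))`. -/
noncomputable def rttwoFchi (q δ : ι → O) (lam : O)
    (hle : rtk2Ichi τ δ ≤ rtk2Ione τ q ⊔ Ideal.span {(C lam : Rtk2P O ι τ)}) :
    Rtk2Rchi τ δ →+* RttwoRb τ q lam :=
  Ideal.Quotient.factor hle

end Glue

section Level

variable {O : Type*} [CommRing O] [IsLocalRing O] {ι τ : Type*} (m : ℕ) {d : ℕ}
  {T0 : Type*} [CommRing T0] [Algebra O T0]

omit [IsLocalRing O] in
/-- scalar multiplication by `λ` is zero modulo `𝔩 ⊔ I ^ n` -/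
theorem rttwo_lam_eq_zero (lam : O) (J : Ideal (RttwS O m)) :
    algebraMap O (Matrix (Fin d) (Fin d) (RttwS O m ⧸ (rttwLam m lam ⊔ J))) lam = 0 := by
  ext i k
  rw [Matrix.algebraMap_matrix_apply, Matrix.zero_apply]
  split_ifs
  · rw [rttwo_algebraMap_quot, Ideal.Quotient.eq_zero_iff_mem]
    exact Ideal.mem_sup_left (Ideal.mem_span_singleton_self _)
  · rfl

/-- **From `TWLevelP` to `RtpLevel`.** -/
theorem rttwo_level (q δ : ι → O) (lam : O)
    (hle : rtk2Ichi τ δ ≤ rtk2Ione τ q ⊔ Ideal.span {(C lam : Rtk2P O ι τ)})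
    (j : T0 →ₐ[O] Matrix (Fin d) (Fin d) O) (B : ι × Fin 6 → T0) (n : ℕ)
    (ρ1 ρχ : Rtk2P O ι τ →ₐ[O]
      Matrix (Fin d) (Fin d) (RttwS O m ⧸ maximalIdeal (RttwS O m) ^ n))
    (h : TWLevelP (τ := τ) q δ lam m d (fun x => j (B x)) (Set.range j) n ρ1 ρχ) :
    RtpLevel (maximalIdeal (RttwS O m)) (rttwAug O m) (rttwLam m lam) (rttwoIota τ q)
      (rttwoTheta m j B)
      (rttwoN m j : Set (Matrix (Fin d) (Fin d) (RttwS O m ⧸ rttwAug O m)))
      (fun r1 rχ => rttwoF1 τ q lam r1 = rttwoFchi q δ lam hle rχ) n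
      (Ideal.Quotient.liftₐ (rtk2Ione τ q) ρ1 h.kills1)
      (Ideal.Quotient.liftₐ (rtk2Ichi τ δ) ρχ h.killsχ) := by
  have hl1 : ∀ u, Ideal.Quotient.liftₐ (rtk2Ione τ q) ρ1 h.kills1
      (Ideal.Quotient.mk (rtk2Ione τ q) u) = ρ1 u := fun u => rfl
  have hlχ : ∀ u, Ideal.Quotient.liftₐ (rtk2Ichi τ δ) ρχ h.killsχ
      (Ideal.Quotient.mk (rtk2Ichi τ δ) u) = ρχ u := fun u => rfl
  refine ⟨?_, ?_, ?_, ?_, ?_⟩
  · -- base_loc
    intro r0
    have key : ((Ideal.Quotient.factorₐ O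
        (le_sup_right : maximalIdeal (RttwS O m) ^ n ≤
          rttwAug O m ⊔ maximalIdeal (RttwS O m) ^ n)).mapMatrix.comp
        ((Ideal.Quotient.liftₐ (rtk2Ione τ q) ρ1 h.kills1).comp (rttwoIota τ q))) =
        ((Ideal.Quotient.factorₐ O
        (le_sup_left : rttwAug O m ≤
          rttwAug O m ⊔ maximalIdeal (RttwS O m) ^ n)).mapMatrix (m := Fin d)).comp
          (rttwoTheta m j B) := by
      apply MvPolynomial.algHom_ext
      rintro ⟨i, k⟩
      rw [AlgHom.comp_apply, AlgHom.comp_apply, AlgHom.comp_apply, AlgHom.mapMatrix_apply,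
        AlgHom.mapMatrix_apply]
      have e1 : rttwoIota τ q (MvPolynomial.X (i, k)) =
          Ideal.Quotient.mk (rtk2Ione τ q) (X (rtk2ix i k)) := by
        unfold rttwoIota
        rw [MvPolynomial.aeval_X]
      have e2 : rttwoTheta m j B (MvPolynomial.X (i, k)) = rttwoJb O m d (j (B (i, k))) := by
        unfold rttwoTheta
        rw [AlgHom.comp_apply, MvPolynomial.aeval_X]
        rfl
      rw [e1, hl1, e2]
      exact (h.base_loc i k).trans (rttwoJb_map_factor O m d n _).symm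
    exact DFunLike.congr_fun key r0
  · -- base_T0
    intro r1
    obtain ⟨u, rfl⟩ := Ideal.Quotient.mk_surjective r1
    obtain ⟨t, ⟨t0, rfl⟩, ht⟩ := h.base_T0 u
    refine ⟨rttwoJ m j t0, ⟨t0, rfl⟩, ?_⟩
    rw [hl1, ht, rttwoJ_apply, rttwoJb_map_factor]
  · -- cong
    intro r1 rχ hE
    obtain ⟨u, rfl⟩ := Ideal.Quotient.mk_surjective r1
    obtain ⟨u', rfl⟩ := Ideal.Quotient.mk_surjective rχ
    rw [hl1, hlχ, ← h.cong u']
    have hmem : u - u' ∈ rtk2Ione τ q ⊔ Ideal.span {(C lam : Rtk2P O ι τ)} := by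
      rw [← Ideal.Quotient.eq]
      exact hE
    -- the composite kills `I_1 ⊔ (λ)`
    let F : Rtk2P O ι τ →ₐ[O] Matrix (Fin d) (Fin d)
        (RttwS O m ⧸ (rttwLam m lam ⊔ maximalIdeal (RttwS O m) ^ n)) :=
      (Ideal.Quotient.factorₐ O
        (le_sup_right : maximalIdeal (RttwS O m) ^ n ≤
          rttwLam m lam ⊔ maximalIdeal (RttwS O m) ^ n)).mapMatrix.comp ρ1
    have hF : ∀ v, F v = (ρ1 v).map (Ideal.Quotient.factor
        (le_sup_right : maximalIdeal (RttwS O m) ^ n ≤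
          rttwLam m lam ⊔ maximalIdeal (RttwS O m) ^ n)) := fun v => rfl
    have hker : rtk2Ione τ q ⊔ Ideal.span {(C lam : Rtk2P O ι τ)} ≤
        RingHom.ker F.toRingHom := by
      refine sup_le ?_ ?_
      · intro v hv
        rw [RingHom.mem_ker]
        show F v = 0
        rw [hF, h.kills1 v hv]
        ext a b
        simp
      · rw [Ideal.span_le, Set.singleton_subset_iff, SetLike.mem_coe, RingHom.mem_ker]
        show F (C lam) = 0
        have : (C lam : Rtk2P O ι τ) = algebraMap O (Rtk2P O ι τ) lam := rfl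
        rw [this, AlgHom.commutes]
        exact rttwo_lam_eq_zero m lam _
    have := hker hmem
    rw [RingHom.mem_ker] at this
    have h2 : F u - F u' = 0 := by
      rw [← map_sub]
      exact this
    rw [← hF, ← hF]
    exact sub_eq_zero.mp h2
  · -- scal1
    intro s
    obtain ⟨u, hu⟩ := h.scal1 s
    exact ⟨Ideal.Quotient.mk _ u, (hl1 u).trans hu⟩
  · -- scalχ
    intro s
    obtain ⟨u, hu⟩ := h.scalχ s
    exact ⟨Ideal.Quotient.mk _ u, (hlχ u).trans hu⟩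

end Level

section Main

/-- the three unramified variables of `i` in the polynomial ring `O[X_{i,k}]` -/
noncomputable def rttwoUr (O : Type*) [CommRing O] (ι : Type*) :
    Ideal (MvPolynomial (ι × Fin 6) O) :=
  Ideal.span (Set.range fun p : ι × Fin 3 =>
    (MvPolynomial.X (p.1, Fin.castLE (by norm_num) p.2) : MvPolynomial (ι × Fin 6) O))

theorem rttwo_iota_mem {O : Type*} [CommRing O] {ι : Type*} (τ : Type*) (q : ι → O)
    (x : MvPolynomial (ι × Fin 6) O) (hx : x ∈ rttwoUr O ι) :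
    ∃ y ∈ rtk2Iur O ι τ, Ideal.Quotient.mk (rtk2Ione τ q) y = rttwoIota τ q x := by
  have hle : rttwoUr O ι ≤ Ideal.comap (rttwoIota τ q)
      ((rtk2Iur O ι τ).map (Ideal.Quotient.mk (rtk2Ione τ q))) := by
    unfold rttwoUr
    rw [Ideal.span_le]
    rintro _ ⟨⟨i, k⟩, rfl⟩
    rw [SetLike.mem_coe, Ideal.mem_comap]
    have e1 : rttwoIota τ q (MvPolynomial.X (i, Fin.castLE (by norm_num) k)) =
        Ideal.Quotient.mk (rtk2Ione τ q) (X (rtk2ix i (Fin.castLE (by norm_num) k))) := by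
      unfold rttwoIota
      rw [MvPolynomial.aeval_X]
    rw [e1]
    apply Ideal.mem_map_of_mem
    have : (X (rtk2ix i (Fin.castLE (by norm_num) k)) : Rtk2P O ι τ) = rtk2genUr (i, k) := by
      fin_cases k <;> rfl
    rw [this]
    exact Ideal.subset_span ⟨(i, k), rfl⟩
  exact (Ideal.mem_map_iff_of_surjective _ Ideal.Quotient.mk_surjective).mp (hle hx)

/-- **GLUE 1.** -/
theorem stmtOutTW : StmtOutTW := by
  intro O _ _ _ _ _ lam hlam h2 ι τ _ _ q δ hq hq1 hδ m d hm hd hIchi hQur hCr T0 _ _ _ j hj B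
    hlev
  -- basic facts
  have hprime : (Ideal.span {lam}).IsPrime := hlam ▸ (maximalIdeal.isMaximal O).isPrime
  have h2' : (2 : O) ∉ Ideal.span {lam} := by
    rw [← hlam]
    intro h
    exact (IsLocalRing.mem_maximalIdeal _).mp h h2
  have hirr : Irreducible lam :=
    (IsDiscreteValuationRing.irreducible_iff_uniformizer lam).mpr hlam
  have hlam0 : lam ≠ 0 := hirr.ne_zero
  have hq' : ∀ i, ∃ (e : ℕ) (u : O), lam ^ e = (1 - q i) * u := by
    intro i
    have hne : 1 - q i ≠ 0 := sub_ne_zero.mpr (hq1 i).symm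
    obtain ⟨e, u, hu⟩ := IsDiscreteValuationRing.associated_pow_irreducible hne hirr
    exact ⟨e, u, hu.symm⟩
  have hδ' : ∀ i, δ i ∈ maximalIdeal O := by
    intro i
    obtain ⟨r, hr⟩ := hδ i
    rw [hlam, hr]
    exact Ideal.mul_mem_right _ _ (Ideal.mem_span_singleton_self _)
  have hle : rtk2Ichi τ δ ≤ rtk2Ione τ q ⊔ Ideal.span {(C lam : Rtk2P O ι τ)} :=
    rtk2_Ichi_le_Ione_sup lam h2 hq hδ
  -- instances
  haveI : IsDomain (Rtk2Rchi τ δ) := Ideal.Quotient.isDomain _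
  have hI1ne : rtk2Ione τ q ≠ ⊤ := by
    intro h
    apply hQur.ne_top
    rw [eq_top_iff, ← h]
    exact (rtk2_Ione_le_Iur q).trans le_sup_right
  haveI : Nontrivial (Rtk2Rone τ q) := Ideal.Quotient.nontrivial_iff.mpr hI1ne
  -- patching
  obtain ⟨ρ1, ρχ, hP⟩ := rtp_patch_powerSeries (σ := Fin m) (rttwAug O m) (rttwLam m lam)
    (rttwoIota τ q) (rttwoTheta m j B)
    (fun r1 rχ => rttwoF1 τ q lam r1 = rttwoFchi q δ lam hle rχ)
    (Ideal.Quotient.mk (rtk2Ione τ q)) Ideal.Quotient.mk_surjective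
    (Ideal.Quotient.mk (rtk2Ichi τ δ)) Ideal.Quotient.mk_surjective (rttwoN m j)
    (fun n => by
      obtain ⟨r1, rχ, h⟩ := hlev n
      exact ⟨_, _, rttwo_level m q δ lam hle j B n r1 rχ h⟩)
  -- the support argument
  haveI : IsDomain (RttwS O m) := NoZeroDivisors.to_isDomain _
  haveI := rttwo_aug_isPrime O m
  haveI := rtk2b_Qur_map_isPrime (τ := τ) lam hprime q
  obtain ⟨hq𝔮, hCr'⟩ := rtk2b_cramer_quot (τ := τ) lam hprime h2' q hq hq'
  have halg1 : algebraMap O (Rtk2Rone τ q) lam = Ideal.Quotient.mk (rtk2Ione τ q) (C lam) := rfl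
  have halgχ : algebraMap O (Rtk2Rchi τ δ) lam = Ideal.Quotient.mk (rtk2Ichi τ δ) (C lam) := rfl
  obtain ⟨𝔓, h𝔓, hlam𝔓, hI⟩ := rtk4_out_T0_of_dim (S := RttwS O m)
    (R0 := MvPolynomial (ι × Fin 6) O) (R1 := Rtk2Rone τ q) (Rχ := Rtk2Rchi τ δ)
    (Rb := RttwoRb τ q lam)
    (rtk4_dim_mvPowerSeries_ne_top O m) (rtk2b_dim_Rchi_le_powerSeries lam hlam h2 δ hδ' m hm)
    lam
    (by
      rw [rttwo_algebraMap_S]
      intro h
      apply hlam0
      have := congrArg constantCoeff h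
      rwa [constantCoeff_C, map_zero] at this)
    (rttwAug O m)
    (by
      rw [rttwo_algebraMap_S]
      unfold rttwAug
      rw [RingHom.mem_ker, constantCoeff_C]
      exact hlam0)
    (rttwoF1 τ q lam) (rttwoFchi q δ lam hle)
    (Ideal.Quotient.factor_surjective _) (Ideal.Quotient.factor_surjective _)
    (by
      intro x hx
      obtain ⟨u, rfl⟩ := Ideal.Quotient.mk_surjective x
      rw [RingHom.mem_ker] at hx
      have hu : u ∈ rtk2Ione τ q ⊔ Ideal.span {(C lam : Rtk2P O ι τ)} :=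
        Ideal.Quotient.eq_zero_iff_mem.mp hx
      obtain ⟨v, hv, w, hw, rfl⟩ := Submodule.mem_sup.mp hu
      obtain ⟨c, rfl⟩ := Ideal.mem_span_singleton'.mp hw
      rw [map_add, Ideal.Quotient.eq_zero_iff_mem.mpr hv, zero_add, map_mul, halg1]
      exact Ideal.mul_mem_left _ _ (Ideal.mem_span_singleton_self _))
    (by
      rw [halgχ]
      exact Ideal.Quotient.eq_zero_iff_mem.mpr
        (Ideal.mem_sup_right (Ideal.mem_span_singleton_self _)))
    hd ρ1 ρχ (fun r1 rχ h => hP.cong r1 rχ h) hP.scal1 hP.scalχ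
    ((rttwoIota τ q : MvPolynomial (ι × Fin 6) O →ₐ[O] Rtk2Rone τ q) :
      MvPolynomial (ι × Fin 6) O →+* Rtk2Rone τ q)
    (rttwoUr O ι)
    ((rtk2Qur ι τ lam).map (Ideal.Quotient.mk (rtk2Ione τ q))) hq𝔮
    (by
      intro x hx
      obtain ⟨y, hy, hxy⟩ := rttwo_iota_mem τ q x hx
      obtain ⟨e, D, hD, h0⟩ := hCr' y hy
      refine ⟨e, D, hD, ?_⟩
      rw [← h0, hxy]
      rfl)
    (rttwoJ m j) (rttwoJ_injective m j hj)
    (fun r1 => hP.base_T0 r1)
    (fun r0 => MvPolynomial.aeval B r0)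
    (fun r0 => (hP.base_loc r0).symm)
  refine ⟨𝔓, h𝔓, hlam𝔓, fun i => ⟨?_, ?_, ?_⟩⟩
  · have := hI _ (Ideal.subset_span ⟨(i, 0), rfl⟩)
    rwa [MvPolynomial.aeval_X] at this
  · have := hI _ (Ideal.subset_span ⟨(i, 1), rfl⟩)
    rwa [MvPolynomial.aeval_X] at this
  · have := hI _ (Ideal.subset_span ⟨(i, 2), rfl⟩)
    rwa [MvPolynomial.aeval_X] at this

end Main

end Fermat.Agent.RT
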