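/-
K-machine (row 37 = S38/S43, and S59): INTERFACE of the algebraic core.
Captain: helper43.  Plan: NOTES/RT-plan.md.

The machine is the Kisin–Taylor form of the Taylor–Wiles method with "Ihara avoidance" at the
TRIVIAL primes (`r ≡ 1 mod p`, `ρ̄(Frob_r)` scalar).  This file fixes the shape of the data that
travels between the pieces:

* `LocalPair`   : the two local framed rings `R¹` (unipotent inertia) and `R^χ` (inertia of type
                  `(ζ, ζ⁻¹)`) with their common reduction `Rb` and the ideal `Iur ⊆ R¹` of the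
                  unramified locus.                      PRODUCER: K2 (helper27).
* `TWLevel`     : one Taylor–Wiles level `n` for one type: a module over `R_∞ = Rloc[[x₁..x_g]]`,
                  free of rank `d` over `S_∞ / 𝔟_n` (through `σ : S_∞ → R_∞`), with base
                  `M / 𝔞 M = M₀`.                       PRODUCER: K3 + K5 + K6 + K7.
* `TWLevelPair` : both types at level `n` with the identification of the reductions mod `λ`.
* `Patched`     : the patched pair `(M¹_∞, M^χ_∞)`.      PRODUCER: P (patching, helper70).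
* `StmtPatch`   : every family of `TWLevelPair`s (all `n`) yields a `Patched`.
* `StmtOut`     : a `Patched` whose `χ`-side is nearly faithful yields a prime `𝔓` of the base
                  Hecke ring `T₀` with `λ ∉ 𝔓` and `θ(Iur) ⊆ 𝔓`: a characteristic-zero eigensystem
                  of the base level whose representation is unramified at every trivial prime.
                                                          PRODUCER: K4 (helper97).

Everything here is `Mathlib`-only.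
-/
import Mathlib

set_option autoImplicit false

namespace Fermat.Agent.RT

open MvPowerSeries

/-- `S_∞ = 𝒪[[y₁, …, y_h, z₁, …, z_f]]` (`h` Taylor–Wiles variables, `f` framing variables). -/
abbrev SInf (𝒪 : Type) [CommRing 𝒪] (h f : ℕ) : Type := MvPowerSeries (Fin (h + f)) 𝒪

/-- `R_∞ = Rloc[[x₁, …, x_g]]`. -/
abbrev RInf (Rloc : Type) [CommRing Rloc] (g : ℕ) : Type := MvPowerSeries (Fin g) Rloc

/-- The augmentation ideal `𝔞 = (y, z)` of `S_∞`. -/
noncomputable def augIdeal (𝒪 : Type) [CommRing 𝒪] (h f : ℕ) : Ideal (SInf 𝒪 h f) :=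
  Ideal.span (Set.range fun i : Fin (h + f) => (X i : SInf 𝒪 h f))

/-- The ideal `𝔟_n = ((1 + y_i)^{p^n} − 1 : i < h)` of `S_∞`; `S_∞ / 𝔟_n = 𝒪[(ℤ/pⁿ)^h][[z]]`. -/
noncomputable def levelIdeal (𝒪 : Type) [CommRing 𝒪] (p h f n : ℕ) : Ideal (SInf 𝒪 h f) :=
  Ideal.span (Set.range fun i : Fin h =>
    ((1 + X (Fin.castAdd f i)) ^ (p ^ n) - 1 : SInf 𝒪 h f))

/-- **K2 (producer).**  The pair of local framed rings at the trivial primes.
`R1` = unipotent type, `Rχ` = type `χ`, `Rb` = their common reduction mod `λ`,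
`Iur` = the ideal of `R1` generated by the entries of the `N_r = Σ_r − 1`. -/
structure LocalPair (𝒪 : Type) [CommRing 𝒪] (lam : 𝒪) : Type 1 where
  R1 : Type
  Rχ : Type
  Rb : Type
  [instR1 : CommRing R1]
  [instRχ : CommRing Rχ]
  [instRb : CommRing Rb]
  [algR1 : Algebra 𝒪 R1]
  [algRχ : Algebra 𝒪 Rχ]
  [noethR1 : IsNoetherianRing R1]
  [noethRχ : IsNoetherianRing Rχ]
  f1 : R1 →+* Rb
  fχ : Rχ →+* Rb
  f1_surjective : Function.Surjective f1
  fχ_surjective : Function.Surjective fχ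
  ker_f1 : RingHom.ker f1 = Ideal.span {algebraMap 𝒪 R1 lam}
  ker_fχ : RingHom.ker fχ = Ideal.span {algebraMap 𝒪 Rχ lam}
  /-- the unramified locus of `Spec R1` -/
  Iur : Ideal R1

attribute [instance] LocalPair.instR1 LocalPair.instRχ LocalPair.instRb LocalPair.algR1
  LocalPair.algRχ LocalPair.noethR1 LocalPair.noethRχ

section Level

variable (𝒪 : Type) [CommRing 𝒪] (Rloc : Type) [CommRing Rloc] [Algebra 𝒪 Rloc]
  (M0 : Type) [AddCommGroup M0] [Module 𝒪 M0]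

/-- **One Taylor–Wiles level** (one type).  `J` is the ideal of `S_∞` over which the level is
free: `J = levelIdeal 𝒪 p h f n` at level `n`, `J = ⊥` for the patched module.
`T0` is the base Hecke ring acting on `M0`, `θ : Rloc → T0` the (level-independent) local map. -/
structure TWLevel (h f g d : ℕ) (T0 : Subalgebra 𝒪 (Module.End 𝒪 M0)) (θ : Rloc →ₐ[𝒪] T0)
    (J : Ideal (SInf 𝒪 h f)) : Type 1 where
  /-- the `S_∞`-structure of `R_∞` at this level -/
  σ : SInf 𝒪 h f →ₐ[𝒪] RInf Rloc g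
  M : Type
  [instAddCommGroup : AddCommGroup M]
  [instModule : Module (RInf Rloc g) M]
  /-- `M` is free of rank `d` over `S_∞ / J` (through `σ`) -/
  b : Fin d → M
  b_span : ∀ x : M, ∃ c : Fin d → SInf 𝒪 h f, x = ∑ i, σ (c i) • b i
  b_rel : ∀ c : Fin d → SInf 𝒪 h f, ∑ i, σ (c i) • b i = 0 ↔ ∀ i, c i ∈ J
  /-- the base: `M / 𝔞 M = M0` -/
  π : M →+ M0
  π_surjective : Function.Surjective π
  ker_π : ∀ x : M, π x = 0 ↔
    x ∈ ((augIdeal 𝒪 h f).map (σ : SInf 𝒪 h f →+* RInf Rloc g)) •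
      (⊤ : Submodule (RInf Rloc g) M)
  /-- `R_∞` acts on the base through `T0` … -/
  base_T0 : ∀ r : RInf Rloc g, ∃ t : T0, ∀ x : M, π (r • x) = (t : Module.End 𝒪 M0) (π x)
  /-- … onto `T0` … -/
  base_surjective : ∀ t : T0, ∃ r : RInf Rloc g, ∀ x : M, π (r • x) = (t : Module.End 𝒪 M0) (π x)
  /-- … and the local ring acts through the fixed map `θ`. -/
  base_loc : ∀ (r : Rloc) (x : M),
    π (MvPowerSeries.C (σ := Fin g) (R := Rloc) r • x) = (θ r : Module.End 𝒪 M0) (π x)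

attribute [instance] TWLevel.instAddCommGroup TWLevel.instModule

end Level

section Pair

variable {𝒪 : Type} [CommRing 𝒪] {lam : 𝒪} (L : LocalPair 𝒪 lam)
  (M01 M0χ : Type) [AddCommGroup M01] [Module 𝒪 M01] [AddCommGroup M0χ] [Module 𝒪 M0χ]

/-- **Both types at one level**, with the identification of the reductions mod `λ`:
`Mb` is a module over `Rb[[x]]`, `g1 : M¹ → Mb` and `gχ : M^χ → Mb` are semilinear surjections
with kernels `λ M¹`, `λ M^χ`, and the two `S_∞`-structures agree mod `λ`. -/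
structure TWLevelPair (h f g d : ℕ)
    (T01 : Subalgebra 𝒪 (Module.End 𝒪 M01)) (θ1 : L.R1 →ₐ[𝒪] T01)
    (T0χ : Subalgebra 𝒪 (Module.End 𝒪 M0χ)) (θχ : L.Rχ →ₐ[𝒪] T0χ)
    (J : Ideal (SInf 𝒪 h f)) : Type 1 where
  L1 : TWLevel 𝒪 L.R1 M01 h f g d T01 θ1 J
  Lχ : TWLevel 𝒪 L.Rχ M0χ h f g d T0χ θχ J
  Mb : Type
  [instAddCommGroup : AddCommGroup Mb]
  [instModule : Module (RInf L.Rb g) Mb]
  g1 : L1.M →+ Mb
  gχ : Lχ.M →+ Mb
  g1_surjective : Function.Surjective g1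
  gχ_surjective : Function.Surjective gχ
  g1_smul : ∀ (r : RInf L.R1 g) (x : L1.M), g1 (r • x) = MvPowerSeries.map L.f1 r • g1 x
  gχ_smul : ∀ (r : RInf L.Rχ g) (x : Lχ.M), gχ (r • x) = MvPowerSeries.map L.fχ r • gχ x
  ker_g1 : ∀ x : L1.M, g1 x = 0 → ∃ y : L1.M,
    x = MvPowerSeries.C (σ := Fin g) (R := L.R1) (algebraMap 𝒪 L.R1 lam) • y
  ker_gχ : ∀ x : Lχ.M, gχ x = 0 → ∃ y : Lχ.M,
    x = MvPowerSeries.C (σ := Fin g) (R := L.Rχ) (algebraMap 𝒪 L.Rχ lam) • y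
  σ_compat : ∀ s : SInf 𝒪 h f,
    MvPowerSeries.map L.f1 (L1.σ s) = MvPowerSeries.map L.fχ (Lχ.σ s)

attribute [instance] TWLevelPair.instAddCommGroup TWLevelPair.instModule

/-- **The patched pair** = a `TWLevelPair` which is free over `S_∞` itself (`J = ⊥`). -/
abbrev Patched (h f g d : ℕ)
    (T01 : Subalgebra 𝒪 (Module.End 𝒪 M01)) (θ1 : L.R1 →ₐ[𝒪] T01)
    (T0χ : Subalgebra 𝒪 (Module.End 𝒪 M0χ)) (θχ : L.Rχ →ₐ[𝒪] T0χ) : Type 1 :=
  TWLevelPair L M01 M0χ h f g d T01 θ1 T0χ θχ ⊥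

end Pair

/-- **P (patching; helper70).**  `𝒪` a complete discrete valuation ring with finite residue
field and uniformizer `lam`, `p ∈ (lam)`; the local rings are complete local Noetherian with
finite residue field (here encoded by: `R1`, `Rχ` are quotients of power series rings over `𝒪`);
`M01`, `M0χ` finite over `𝒪`.  A family of Taylor–Wiles levels (one for every `n ≥ 1`) yields a
patched pair. -/
def StmtPatch : Prop :=
  ∀ (𝒪 : Type) [CommRing 𝒪] [IsDomain 𝒪] [IsDiscreteValuationRing 𝒪]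
    [IsAdicComplete (IsLocalRing.maximalIdeal 𝒪) 𝒪] [Finite (IsLocalRing.ResidueField 𝒪)]
    (lam : 𝒪) (_hlam : IsLocalRing.maximalIdeal 𝒪 = Ideal.span {lam})
    (p : ℕ) [Fact p.Prime] (_hp : (p : 𝒪) ∈ IsLocalRing.maximalIdeal 𝒪)
    (L : LocalPair 𝒪 lam)
    (_hR1 : ∃ (k : ℕ) (φ : MvPowerSeries (Fin k) 𝒪 →ₐ[𝒪] L.R1), Function.Surjective φ)
    (_hRχ : ∃ (k : ℕ) (φ : MvPowerSeries (Fin k) 𝒪 →ₐ[𝒪] L.Rχ), Function.Surjective φ)
    (M01 M0χ : Type) [AddCommGroup M01] [Module 𝒪 M01] [AddCommGroup M0χ] [Module 𝒪 M0χ]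
    [Module.Finite 𝒪 M01] [Module.Finite 𝒪 M0χ]
    (h f g d : ℕ)
    (T01 : Subalgebra 𝒪 (Module.End 𝒪 M01)) (θ1 : L.R1 →ₐ[𝒪] T01)
    (T0χ : Subalgebra 𝒪 (Module.End 𝒪 M0χ)) (θχ : L.Rχ →ₐ[𝒪] T0χ),
    (∀ n : ℕ, Nonempty (TWLevelPair L M01 M0χ h f g d T01 θ1 T0χ θχ (levelIdeal 𝒪 p h f n))) →
    Nonempty (Patched L M01 M0χ h f g d T01 θ1 T0χ θχ)

/-- **K4 (support + point; helper97).**  From a patched pair to a characteristic-zero point of
the base Hecke ring in the unramified locus.  Hypotheses on the local rings (all from K2):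
* `hdom`  : `R^χ_∞ = Rχ[[x₁..x_g]]` is a domain;
* `hfin`  : `R^χ_∞` is finite over a power series ring `𝒪[[w₁..w_{h+f}]]` (same number of
            variables as `S_∞`: the numerical coincidence `dim R^χ_∞ = dim S_∞`);
* `hq`    : `𝔮_ur = (λ) + Iur·R¹_∞` is a prime of `R¹_∞`;
* `hCr`   : Cramer: every `x ∈ Iur` is killed by `λ^e · D` for some `D ∉ 𝔮_ur`.
Conclusion: a prime `𝔓` of `T0` with `λ ∉ 𝔓` containing `θ(Iur)`. -/
def StmtOut : Prop :=
  ∀ (𝒪 : Type) [CommRing 𝒪] [IsDomain 𝒪] [IsDiscreteValuationRing 𝒪]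
    [IsAdicComplete (IsLocalRing.maximalIdeal 𝒪) 𝒪]
    (lam : 𝒪) (_hlam : IsLocalRing.maximalIdeal 𝒪 = Ideal.span {lam})
    (L : LocalPair 𝒪 lam)
    (M01 M0χ : Type) [AddCommGroup M01] [Module 𝒪 M01] [AddCommGroup M0χ] [Module 𝒪 M0χ]
    [Module.Finite 𝒪 M01] [Module.Free 𝒪 M01] [Nontrivial M01]
    (h f g d : ℕ)
    (T01 : Subalgebra 𝒪 (Module.End 𝒪 M01)) (θ1 : L.R1 →ₐ[𝒪] T01)
    (T0χ : Subalgebra 𝒪 (Module.End 𝒪 M0χ)) (θχ : L.Rχ →ₐ[𝒪] T0χ)
    (_Pt : Patched L M01 M0χ h f g d T01 θ1 T0χ θχ)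
    (_hdom : IsDomain (RInf L.Rχ g))
    (_hfin : ∃ φ : MvPowerSeries (Fin (h + f)) 𝒪 →ₐ[𝒪] RInf L.Rχ g,
      (φ : MvPowerSeries (Fin (h + f)) 𝒪 →+* RInf L.Rχ g).Finite)
    (_hq : (Ideal.span {MvPowerSeries.C (σ := Fin g) (R := L.R1) (algebraMap 𝒪 L.R1 lam)} ⊔
        L.Iur.map (MvPowerSeries.C (σ := Fin g) (R := L.R1))).IsPrime)
    (_hCr : ∀ x ∈ L.Iur, ∃ (e : ℕ) (D : L.R1),
      MvPowerSeries.C (σ := Fin g) (R := L.R1) D ∉
        (Ideal.span {MvPowerSeries.C (σ := Fin g) (R := L.R1) (algebraMap 𝒪 L.R1 lam)} ⊔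
          L.Iur.map (MvPowerSeries.C (σ := Fin g) (R := L.R1))) ∧
      algebraMap 𝒪 L.R1 lam ^ e * D * x = 0),
    ∃ 𝔓 : Ideal T01, 𝔓.IsPrime ∧ algebraMap 𝒪 T01 lam ∉ 𝔓 ∧ ∀ x ∈ L.Iur, θ1 x ∈ 𝔓

end Fermat.Agent.RT
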